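import Fermat.Agent.Smyth.Factor
import Mathlib.FieldTheory.Minpoly.IsIntegrallyClosed
import Mathlib.FieldTheory.Separable
import Mathlib.RingTheory.Polynomial.RationalRoot
import Mathlib.RingTheory.RootsOfUnity.Complex
import Mathlib.Topology.Order.IntermediateValue

/-!
# Smyth's theorem and the smallest Pisot number

The plastic number `θ`, `θ³ = θ + 1`, bounds below the Mahler measure of every non-reciprocal integer polynomial and
every Pisot number; `X³ - X - 1` attains it.
-/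

set_option autoImplicit false
set_option linter.unusedSectionVars false

noncomputable section

open Polynomial
open scoped Classical

namespace FA.Smyth

theorem plastic_bounds {θ : ℝ} (h : θ ^ 3 = θ + 1) : 1 < θ ∧ θ < 4 / 3 := by
  constructor
  · by_contra hle
    push Not at hle
    rcases le_or_gt θ (-1) with h1 | h1
    · nlinarith [mul_le_mul_of_nonpos_left h1 (by linarith : θ ≤ 0)]
    · rcases le_or_gt θ 0 with h2 | h2
      · nlinarith [mul_nonneg (neg_nonneg.mpr h2) (sq_nonneg θ)]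
      · nlinarith [mul_le_mul_of_nonneg_left hle h2.le]
  · by_contra hge
    push Not at hge
    nlinarith [mul_le_mul hge hge (by norm_num) (by linarith)]

theorem exists_plastic : ∃ θ : ℝ, θ ^ 3 = θ + 1 := by
  have hc : ContinuousOn (fun x : ℝ => x ^ 3 - x - 1) (Set.Icc 1 2) := by fun_prop
  obtain ⟨θ, -, hθ⟩ := intermediate_value_Icc (by norm_num : (1 : ℝ) ≤ 2) hc
    (show (0 : ℝ) ∈ Set.Icc ((1 : ℝ) ^ 3 - 1 - 1) ((2 : ℝ) ^ 3 - 2 - 1) by norm_num)
  exact ⟨θ, by simp only at hθ; linarith⟩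

theorem le_of_pow_three_ge {θ M : ℝ} (hθ : θ ^ 3 = θ + 1) (hM1 : 1 ≤ M) (h : M + 1 ≤ M ^ 3) : θ ≤ M := by
  by_contra hlt
  push Not at hlt
  have h1 := (plastic_bounds hθ).1
  have hpos : 0 < (θ - M) * (θ ^ 2 + θ * M + (M ^ 2 - 1)) :=
    mul_pos (by linarith) (by nlinarith)
  nlinarith

theorem map_int_neg (f : ℤ[X]) : (-f).map (Int.castRingHom ℂ) = -f.map (Int.castRingHom ℂ) := Polynomial.map_neg _

theorem mahlerMeasure_neg (p : ℂ[X]) : (-p).mahlerMeasure = p.mahlerMeasure := by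
  rw [show -p = C (-1) * p by simp, mahlerMeasure_mul, mahlerMeasure_const, norm_neg, norm_one, one_mul]

/-- **Smyth's theorem.** -/
theorem smyth {f : ℤ[X]} (h0 : f.coeff 0 ≠ 0) (h1 : f.reverse ≠ f) (h2 : f.reverse ≠ -f) {θ : ℝ}
    (hθ : θ ^ 3 = θ + 1) : θ ≤ (f.map (Int.castRingHom ℂ)).mahlerMeasure := by
  set F := f.map (Int.castRingHom ℂ) with hF
  have hθ' := (plastic_bounds hθ).2
  have hinj : Function.Injective (Int.castRingHom ℂ) := RingHom.injective_int _
  have hlead : F.leadingCoeff = (f.leadingCoeff : ℂ) := by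
    rw [hF, leadingCoeff_map_of_injective hinj, eq_intCast]
  have hnorm : ∀ n : ℤ, ‖(n : ℂ)‖ = ((|n| : ℤ) : ℝ) := fun n => by
    rw [Complex.norm_intCast, Int.cast_abs]
  by_cases hlc : 2 ≤ |f.leadingCoeff|
  · have h := leadingCoeff_le_mahlerMeasure F
    rw [hlead, hnorm] at h
    have : (2 : ℝ) ≤ ((|f.leadingCoeff| : ℤ) : ℝ) := by exact_mod_cast hlc
    linarith
  by_cases hcc : 2 ≤ |f.coeff 0|
  · have h := norm_coeff_le_choose_mul_mahlerMeasure 0 F
    rw [Nat.choose_zero_right, Nat.cast_one, one_mul, hF, Polynomial.coeff_map, eq_intCast, hnorm] at h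
    have : (2 : ℝ) ≤ ((|f.coeff 0| : ℤ) : ℝ) := by exact_mod_cast hcc
    linarith
  have hne : f ≠ 0 := fun e => h0 (by rw [e, coeff_zero])
  have hl : f.leadingCoeff = 1 ∨ f.leadingCoeff = -1 := by
    have := leadingCoeff_ne_zero.mpr hne
    have := abs_lt.mp (not_le.mp hlc)
    omega
  have hc : f.coeff 0 = 1 ∨ f.coeff 0 = -1 := by
    have := abs_lt.mp (not_le.mp hcc)
    omega
  have key : ∀ g : ℤ[X], g.Monic → (g.coeff 0 = 1 ∨ g.coeff 0 = -1) → g.reverse ≠ g → g.reverse ≠ -g →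
      θ ≤ (g.map (Int.castRingHom ℂ)).mahlerMeasure := fun g hm hg h1 h2 => by
    refine le_of_pow_three_ge hθ ?_ (pow_three_ge hm hg ?_)
    · exact one_le_mahlerMeasure_of_one_le_norm_leadingCoeff (by rw [(hm.map _).leadingCoeff, norm_one])
    · rcases hg with e | e <;> rw [e]
      · rwa [map_one, one_mul]
      · rwa [map_neg, map_one, neg_one_mul]
  rcases hl with hl | hl
  · exact key f hl hc h1 h2
  · have h := key (-f) (by rw [Monic, leadingCoeff_neg, hl, neg_neg]) (by rw [coeff_neg]; omega)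
      (by rw [reverse_neg, ne_eq, neg_inj]; exact h1) (by rw [reverse_neg, ne_eq, neg_inj]; exact h2)
    rwa [map_int_neg, mahlerMeasure_neg] at h

/-- The other roots of `X³ - X - 1` are inside the unit circle. -/
theorem norm_lt_one_of_root {θ : ℝ} (hθ : θ ^ 3 = θ + 1) {z : ℂ}
    (hz : z ^ 2 + (θ : ℂ) * z + ((θ : ℂ) ^ 2 - 1) = 0) : ‖z‖ < 1 := by
  obtain ⟨h1, h43⟩ := plastic_bounds hθ
  have hre := congrArg Complex.re hz
  have him := congrArg Complex.im hz
  rw [pow_two z, pow_two (θ : ℂ)] at hre him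
  simp only [Complex.add_re, Complex.add_im, Complex.mul_re, Complex.mul_im, Complex.sub_re, Complex.sub_im,
    Complex.ofReal_re, Complex.ofReal_im, Complex.one_re, Complex.one_im, Complex.zero_re, Complex.zero_im]
    at hre him
  have hor : z.im = 0 ∨ 2 * z.re + θ = 0 := by
    rw [← mul_eq_zero]
    linear_combination him
  have h34 : 2 < θ ^ 3 := by linarith
  have hθ54 : 5 / 4 < θ := by
    by_contra hle
    have := pow_le_pow_left₀ (by linarith : (0 : ℝ) ≤ θ) (not_lt.mp hle) 3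
    norm_num at this
    linarith
  have hsq : ‖z‖ ^ 2 < 1 := by
    rw [← Complex.normSq_eq_norm_sq, Complex.normSq_apply]
    rcases hor with h | h
    · rw [h] at hre
      nlinarith [sq_nonneg (2 * z.re + θ)]
    · nlinarith
  exact lt_of_pow_lt_pow_left₀ 2 zero_le_one (by rwa [one_pow])

/-- `θ` is a Pisot number. -/
theorem isPisot_plastic {θ : ℝ} (hθ : θ ^ 3 = θ + 1) :
    1 < θ ∧ IsIntegral ℤ θ ∧ ∀ z : ℂ, aeval z (minpoly ℤ θ) = 0 → z ≠ (θ : ℂ) → ‖z‖ < 1 := by
  have hroot : aeval θ (X ^ 3 - X - 1 : ℤ[X]) = 0 := by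
    simp only [map_sub, map_pow, aeval_X, map_one]
    linarith
  have hint : IsIntegral ℤ θ := ⟨X ^ 3 - X - 1, by monicity!, hroot⟩
  refine ⟨(plastic_bounds hθ).1, hint, fun z hz hne => norm_lt_one_of_root hθ ?_⟩
  obtain ⟨g, hg⟩ := minpoly.isIntegrallyClosed_dvd hint hroot
  have hz' : aeval z (X ^ 3 - X - 1 : ℤ[X]) = 0 := by rw [hg, map_mul, hz, zero_mul]
  simp only [map_sub, map_pow, aeval_X, map_one] at hz'
  have hθC : (θ : ℂ) ^ 3 = θ + 1 := by exact_mod_cast hθ
  exact (mul_eq_zero.mp (show (z - θ) * (z ^ 2 + (θ : ℂ) * z + ((θ : ℂ) ^ 2 - 1)) = 0 by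
    linear_combination hz' - hθC)).resolve_left (sub_ne_zero.mpr hne)

/-- **The bound is attained.** -/
theorem mahlerMeasure_plastic {θ : ℝ} (hθ : θ ^ 3 = θ + 1) :
    ((X ^ 3 - X - 1 : ℤ[X]).map (Int.castRingHom ℂ)).mahlerMeasure = θ := by
  obtain ⟨h1, h43⟩ := plastic_bounds hθ
  set Q : ℂ[X] := X ^ 2 + C (θ : ℂ) * X + C ((θ : ℂ) ^ 2 - 1) with hQ
  have hQm : Q.Monic := by rw [hQ]; monicity!
  have hθC : (θ : ℂ) ^ 3 = θ + 1 := by exact_mod_cast hθ
  have e : (X ^ 3 - X - 1 : ℤ[X]).map (Int.castRingHom ℂ) = (X - C (θ : ℂ)) * Q := by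
    rw [Polynomial.map_sub, Polynomial.map_sub, Polynomial.map_pow, Polynomial.map_one, Polynomial.map_X, hQ]
    have hC := congrArg (C : ℂ → ℂ[X]) hθC
    rw [map_pow, map_add, map_one] at hC
    rw [map_sub, map_pow, map_one]
    linear_combination hC
  have hroots : ∀ z ∈ Q.roots, max 1 ‖z‖ = (1 : ℝ) := fun z hz => by
    refine max_eq_left (norm_lt_one_of_root hθ ?_).le
    simpa [IsRoot, hQ] using (mem_roots hQm.ne_zero).mp hz
  rw [e, mahlerMeasure_mul, mahlerMeasure_X_sub_C, Complex.norm_real, Real.norm_eq_abs,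
    abs_of_pos (by linarith), max_eq_right h1.le, mahlerMeasure_eq_leadingCoeff_mul_prod_roots, hQm.leadingCoeff,
    norm_one, one_mul, Multiset.prod_eq_one, mul_one]
  intro u hu
  obtain ⟨z, hz, rfl⟩ := Multiset.mem_map.mp hu
  exact hroots z hz

/-- **The smallest Pisot number.** -/
theorem pisot_ge {θ : ℝ} (hθ : θ ^ 3 = θ + 1) {β : ℝ} (hβ : 1 < β) (hint : IsIntegral ℤ β)
    (hconj : ∀ z : ℂ, aeval z (minpoly ℤ β) = 0 → z ≠ (β : ℂ) → ‖z‖ < 1) : θ ≤ β := by
  by_contra hlt
  push Not at hlt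
  have hθ43 := (plastic_bounds hθ).2
  set f := minpoly ℤ β with hf
  set F := f.map (Int.castRingHom ℂ) with hF
  have hmon : f.Monic := minpoly.monic hint
  have hFm : F.Monic := hmon.map _
  have hQ : minpoly ℚ β = f.map (algebraMap ℤ ℚ) := minpoly.isIntegrallyClosed_eq_field_fractions' ℚ hint
  have hFQ : F = (minpoly ℚ β).map (algebraMap ℚ ℂ) := by
    rw [hQ, Polynomial.map_map]
    exact congrArg (Polynomial.map · f) (RingHom.ext_int _ _)
  have hQi : IsIntegral ℚ β := hint.tower_top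
  have hnodup : F.roots.Nodup := by
    rw [hFQ]
    exact nodup_roots ((minpoly.irreducible hQi).separable.map)
  have hroot : ∀ z : ℂ, z ∈ F.roots ↔ aeval z f = 0 := fun z => by
    rw [mem_roots hFm.ne_zero, IsRoot, hF, eval_map, aeval_def]
    rfl
  have hβroot : (β : ℂ) ∈ F.roots := by
    rw [hroot, show (β : ℂ) = algebraMap ℝ ℂ β from rfl, aeval_algebraMap_apply, minpoly.aeval, map_zero]
  have hc0 : f.coeff 0 ≠ 0 := fun h => by
    refine minpoly.coeff_zero_ne_zero hQi (by linarith) ?_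
    rw [hQ, Polynomial.coeff_map, h, map_zero]
  have hM : F.mahlerMeasure = β := by
    rw [mahlerMeasure_eq_leadingCoeff_mul_prod_roots, hFm.leadingCoeff, norm_one, one_mul,
      Multiset.prod_map_eq_pow_single (β : ℂ) (fun z hz hmem => max_eq_left (hconj z ((hroot z).mp hmem) hz).le),
      Multiset.count_eq_one_of_mem hnodup hβroot, pow_one, Complex.norm_real, Real.norm_eq_abs,
      abs_of_pos (by linarith), max_eq_right hβ.le]
  have hrec : f.reverse = f ∨ f.reverse = -f := by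
    by_contra hcon
    push Not at hcon
    have := smyth hc0 hcon.1 hcon.2 hθ
    rw [← hF, hM] at this
    linarith
  have hinv : ∀ z : ℂ, aeval z f = 0 → aeval z⁻¹ f = 0 := fun z hz => by
    have hz0 : z ≠ 0 := fun e => hc0 (by
      rw [e, ← coeff_zero_eq_aeval_zero'] at hz
      simpa using hz)
    let := invertibleOfNonzero hz0
    have h := (eval₂_reverse_eq_zero_iff (algebraMap ℤ ℂ) z f).mpr hz
    rw [invOf_eq_inv] at h
    rcases hrec with e | e <;> rw [e] at h
    · exact h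
    · rw [eval₂_neg, neg_eq_zero] at h
      exact h
  have hsub : ∀ z ∈ F.roots, z = (β : ℂ) ∨ z = ((β⁻¹ : ℝ) : ℂ) := fun z hz => by
    rcases eq_or_ne z (β : ℂ) with e | e
    · exact Or.inl e
    refine Or.inr (by_contra fun hne => ?_)
    have h1 := hconj z ((hroot z).mp hz) e
    have h2 := hconj z⁻¹ (hinv z ((hroot z).mp hz)) (fun e' => hne (by rw [Complex.ofReal_inv, ← e', inv_inv]))
    rw [norm_inv] at h2
    rcases eq_or_ne z 0 with rfl | hz0
    · rw [hroot, ← coeff_zero_eq_aeval_zero'] at hz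
      exact hc0 (by simpa using hz)
    · linarith [(inv_lt_one₀ (norm_pos_iff.mpr hz0)).mp h2]
  have hsum : F.roots.sum = ((-f.nextCoeff : ℤ) : ℂ) := by
    have h := (IsAlgClosed.splits F).nextCoeff_eq_neg_sum_roots_of_monic hFm
    rw [hF, nextCoeff_map (RingHom.injective_int (Int.castRingHom ℂ)), eq_intCast, ← hF] at h
    rw [Int.cast_neg, h, neg_neg]
  set S := F.roots.toFinset with hS
  have hSsum : ∑ z ∈ S, z = ((-f.nextCoeff : ℤ) : ℂ) := by
    rw [← hsum, Finset.sum_eq_multiset_sum, Multiset.map_id', hS, Multiset.toFinset_val, hnodup.dedup]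
  have hSβ : (β : ℂ) ∈ S := Multiset.mem_toFinset.mpr hβroot
  have hSsub : S ⊆ {(β : ℂ), ((β⁻¹ : ℝ) : ℂ)} := fun z hz => by
    simpa using hsub z (Multiset.mem_toFinset.mp hz)
  have hbinv : β⁻¹ < 1 := inv_lt_one_of_one_lt₀ hβ
  by_cases hmem : ((β⁻¹ : ℝ) : ℂ) ∈ S
  · have hSe : S = {(β : ℂ), ((β⁻¹ : ℝ) : ℂ)} := Finset.Subset.antisymm hSsub (by
      intro z hz
      simp only [Finset.mem_insert, Finset.mem_singleton] at hz
      rcases hz with rfl | rfl <;> assumption)
    rw [hSe, Finset.sum_pair (by rw [Ne, Complex.ofReal_inj]; linarith), ← Complex.ofReal_add,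
      ← Complex.ofReal_intCast, Complex.ofReal_inj] at hSsum
    have h1 : (2 : ℝ) < β + β⁻¹ := by
      have := mul_inv_cancel₀ (by linarith : β ≠ 0)
      nlinarith [mul_pos (sub_pos.mpr hβ) (sub_pos.mpr hbinv)]
    have h2 : β + β⁻¹ < 3 := by linarith
    rw [hSsum] at h1 h2
    have h1' : (2 : ℤ) < -f.nextCoeff := by exact_mod_cast h1
    have h2' : -f.nextCoeff < (3 : ℤ) := by exact_mod_cast h2
    omega
  · have hSe : S = {(β : ℂ)} := Finset.Subset.antisymm (fun z hz => by
      have := hSsub hz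
      simp only [Finset.mem_insert, Finset.mem_singleton] at this ⊢
      rcases this with h | h
      · exact h
      · exact absurd (h ▸ hz) hmem) (by simpa using hSβ)
    rw [hSe, Finset.sum_singleton, ← Complex.ofReal_intCast, Complex.ofReal_inj] at hSsum
    rw [hSsum] at hβ hlt
    have h1' : (1 : ℤ) < -f.nextCoeff := by exact_mod_cast hβ
    have h2' : -f.nextCoeff < (2 : ℤ) := by exact_mod_cast (hlt.trans (by linarith : θ < (2 : ℝ)))
    omega

end FA.Smyth
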