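import Fermat.Agent.Smyth.Schur
import Mathlib.Analysis.Real.Sqrt

/-!
# The inequality of Smyth

If `φ = R ψ` with `φ`, `ψ` contractive, `R ≠ 1` of integer coefficients and constant term `1`, and `c` is the real
part of the constant term of `ψ`, then `c ≤ 0` or `c³ + c² ≤ 1`. With `k` the first index of a nonzero coefficient of
`R` and `l` the second, quadratic forms in the exponents `0, k, 2k` settle `l ≥ 2k`, those in `0, l - k, k, l` the
case `l < 2k`.
-/

set_option autoImplicit false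
set_option linter.unusedSectionVars false

noncomputable section

open Finset PowerSeries Complex

namespace FA.Smyth

/-- The real part of a coefficient. -/
def reCoeff (φ : ℂ⟦X⟧) (n : ℕ) : ℝ := (coeff n φ).re

/-- The quadratic form of a contractive series in chosen exponents is bounded by the identity. -/
theorem hankel_le {φ : ℂ⟦X⟧} (h : IsContractive φ) {ι : Type*} [Fintype ι] {e : ι → ℕ} (he : Function.Injective e)
    {n : ℕ} (hn : ∀ a, e a ≤ n) (z : ι → ℝ) :
    |∑ a, ∑ b, if e a + e b ≤ n then z a * z b * reCoeff φ (n - (e a + e b)) else 0| ≤ ∑ a, z a ^ 2 := by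
  classical
  set P : ℂ⟦X⟧ := ∑ a, C (z a : ℂ) * X ^ e a with hP
  have hcoeff : ∀ i, coeff i P = ((∑ a, if e a = i then z a else 0 : ℝ) : ℂ) := fun i => by
    rw [hP, map_sum, ofReal_sum]
    refine sum_congr rfl fun a _ => ?_
    rw [coeff_C_mul, coeff_X_pow]
    rcases eq_or_ne (e a) i with rfl | hne
    · simp
    · simp [hne, hne.symm]
  have hb := abs_re_coeff_mul_sq_le h P (fun i => by rw [hcoeff, ofReal_im]) n
  have hsq : ∑ i ∈ range (n + 1), (coeff i P).re ^ 2 = ∑ a, z a ^ 2 := by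
    rw [← sum_subset (s₁ := univ.image e) (s₂ := range (n + 1)), sum_image he.injOn]
    · refine sum_congr rfl fun a _ => ?_
      rw [hcoeff, ofReal_re, sum_eq_single a (fun b _ hb => if_neg (he.ne hb)) (by simp), if_pos rfl]
    · intro i hi
      obtain ⟨a, -, rfl⟩ := mem_image.mp hi
      exact mem_range.mpr (Nat.lt_succ_of_le (hn a))
    · intro i _ hi
      rw [hcoeff, ofReal_re, sum_eq_zero (fun a _ => if_neg fun e' => hi (mem_image.mpr ⟨a, mem_univ _, e'⟩)),
        zero_pow two_ne_zero]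
  have hmul : (coeff n (φ * (P * P))).re =
      ∑ a, ∑ b, if e a + e b ≤ n then z a * z b * reCoeff φ (n - (e a + e b)) else 0 := by
    rw [hP, sum_mul_sum, mul_sum, map_sum, re_sum]
    refine sum_congr rfl fun a _ => ?_
    rw [mul_sum, map_sum, re_sum]
    refine sum_congr rfl fun b _ => ?_
    rw [show φ * (C (z a : ℂ) * X ^ e a * (C (z b : ℂ) * X ^ e b)) =
      C ((z a * z b : ℝ) : ℂ) * (φ * X ^ (e a + e b)) by rw [pow_add, ofReal_mul, map_mul]; ring,
      coeff_C_mul, coeff_mul_X_pow', re_ofReal_mul, reCoeff]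
    split_ifs <;> simp
  rw [← hmul, ← hsq]
  exact hb

variable {φ : ℂ⟦X⟧}

theorem reCoeff_zero_le (h : IsContractive φ) : reCoeff φ 0 ≤ 1 := by
  have := hankel_le h (e := fun _ : Unit => 0) (fun _ _ _ => rfl) (n := 0) (fun _ => le_rfl) (fun _ => 1)
  simp at this
  exact (le_abs_self _).trans this

/-- The form in the exponents `0, k`. -/
theorem form_two (h : IsContractive φ) {k : ℕ} (hk : 0 < k) (x y : ℝ) :
    |x * x * reCoeff φ k + 2 * x * y * reCoeff φ 0| ≤ x ^ 2 + y ^ 2 := by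
  have hb := hankel_le h (e := ![0, k]) (fun a b hab => by fin_cases a <;> fin_cases b <;> simp at hab ⊢ <;> omega)
    (n := k) (fun a => by fin_cases a <;> simp) ![x, y]
  simp only [Fin.sum_univ_two, Matrix.cons_val_zero, Matrix.cons_val_one] at hb
  simp only [add_zero, zero_add, le_refl, if_true, zero_le, Nat.sub_zero, Nat.sub_self,
    if_neg (show ¬ k + k ≤ k by omega)] at hb
  rw [show x * x * reCoeff φ k + 2 * x * y * reCoeff φ 0 =
    x * x * reCoeff φ k + x * y * reCoeff φ 0 + y * x * reCoeff φ 0 by ring]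
  exact hb

/-- The form in the exponents `0, k, 2k`. -/
theorem form_three (h : IsContractive φ) {k : ℕ} (hk : 0 < k) (x y w : ℝ) :
    |x * x * reCoeff φ (2 * k) + 2 * x * y * reCoeff φ k + (2 * x * w + y * y) * reCoeff φ 0| ≤
      x ^ 2 + y ^ 2 + w ^ 2 := by
  have hb := hankel_le h (e := ![0, k, 2 * k])
    (fun a b hab => by fin_cases a <;> fin_cases b <;> simp at hab ⊢ <;> omega)
    (n := 2 * k) (fun a => by fin_cases a <;> simp; omega) ![x, y, w]
  simp only [Fin.sum_univ_three, Matrix.cons_val_zero, Matrix.cons_val_one, Matrix.cons_val] at hb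
  simp only [add_zero, zero_add, le_refl, if_true, zero_le, Nat.sub_zero, Nat.sub_self,
    if_pos (show k ≤ 2 * k by omega), if_pos (show k + k ≤ 2 * k by omega),
    if_neg (show ¬ k + 2 * k ≤ 2 * k by omega), if_neg (show ¬ 2 * k + k ≤ 2 * k by omega),
    if_neg (show ¬ 2 * k + 2 * k ≤ 2 * k by omega), show 2 * k - k = k by omega,
    show 2 * k - (k + k) = 0 by omega] at hb
  refine le_of_eq_of_le ?_ hb
  congr 1
  ring

/-- The form in the exponents `0, j, k, j + k`. -/
theorem form_four (h : IsContractive φ) {j k : ℕ} (hj : 0 < j) (hk : j < k) (x y u v : ℝ) :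
    |x * x * reCoeff φ (j + k) + 2 * x * y * reCoeff φ k + y * y * reCoeff φ (k - j) + 2 * x * u * reCoeff φ j +
      (2 * x * v + 2 * y * u) * reCoeff φ 0| ≤ x ^ 2 + y ^ 2 + u ^ 2 + v ^ 2 := by
  have hb := hankel_le h (e := ![0, j, k, j + k])
    (fun a b hab => by fin_cases a <;> fin_cases b <;> simp at hab ⊢ <;> omega)
    (n := j + k) (fun a => by fin_cases a <;> simp) ![x, y, u, v]
  simp only [Fin.sum_univ_four, Matrix.cons_val_zero, Matrix.cons_val_one, Matrix.cons_val] at hb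
  simp only [add_zero, zero_add, le_refl, if_true, zero_le, Nat.sub_zero, Nat.sub_self, Nat.add_sub_cancel_left,
    Nat.add_sub_cancel, if_pos (show j ≤ j + k by omega), if_pos (show k ≤ j + k by omega),
    if_pos (show j + j ≤ j + k by omega), if_pos (show k + j ≤ j + k by omega),
    if_neg (show ¬ j + (j + k) ≤ j + k by omega), if_neg (show ¬ j + k + j ≤ j + k by omega),
    if_neg (show ¬ k + (j + k) ≤ j + k by omega), if_neg (show ¬ j + k + k ≤ j + k by omega),
    if_neg (show ¬ j + k + (j + k) ≤ j + k by omega), if_neg (show ¬ k + k ≤ j + k by omega),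
    show j + k - (j + j) = k - j by omega, show j + k - (k + j) = 0 by omega] at hb
  refine le_of_eq_of_le ?_ hb
  congr 1
  ring

theorem abs_reCoeff_le (h : IsContractive φ) {k : ℕ} (hk : 0 < k) :
    |reCoeff φ k| ≤ 1 - reCoeff φ 0 ^ 2 := by
  have h1 := abs_le.mp (form_two h hk 1 (reCoeff φ 0))
  have h2 := abs_le.mp (form_two h hk 1 (-reCoeff φ 0))
  rw [abs_le]
  constructor <;> nlinarith [h1.1, h1.2, h2.1, h2.2]

theorem upper_two (h : IsContractive φ) {k : ℕ} (hk : 0 < k) (hc : reCoeff φ 0 < 1) :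
    reCoeff φ (2 * k) ≤ 1 - reCoeff φ 0 ^ 2 - reCoeff φ k ^ 2 / (1 - reCoeff φ 0) := by
  set c := reCoeff φ 0
  obtain ⟨t, ht⟩ : ∃ t, reCoeff φ k = t * (1 - c) :=
    ⟨reCoeff φ k / (1 - c), (div_mul_cancel₀ _ (sub_pos.mpr hc).ne').symm⟩
  have h1 := (abs_le.mp (form_three h hk 1 t c)).2
  rw [ht, show (t * (1 - c)) ^ 2 / (1 - c) = t * t * (1 - c) by
    rw [div_eq_iff (sub_pos.mpr hc).ne']; ring]
  rw [ht] at h1
  nlinarith

theorem lower_two (h : IsContractive φ) {k : ℕ} (hk : 0 < k) (hc : 0 < reCoeff φ 0) :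
    -(1 - reCoeff φ 0 ^ 2 - reCoeff φ k ^ 2 / (1 + reCoeff φ 0)) ≤ reCoeff φ (2 * k) := by
  set c := reCoeff φ 0
  have hc' : (0 : ℝ) < 1 + c := by linarith
  obtain ⟨t, ht⟩ : ∃ t, reCoeff φ k = t * (1 + c) := ⟨reCoeff φ k / (1 + c), (div_mul_cancel₀ _ hc'.ne').symm⟩
  have h1 := (abs_le.mp (form_three h hk 1 (-t) (-c))).1
  rw [ht, show (t * (1 + c)) ^ 2 / (1 + c) = t * t * (1 + c) by rw [div_eq_iff hc'.ne']; ring]
  rw [ht] at h1
  nlinarith

theorem bounds_of_gt {c : ℝ} (h0 : 0 < c) (h : 1 < c ^ 3 + c ^ 2) : (7548 : ℝ) / 10000 < c := by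
  by_contra hle
  push Not at hle
  have h1 := pow_le_pow_left₀ h0.le hle 3
  have h2 := pow_le_pow_left₀ h0.le hle 2
  norm_num at h1 h2
  linarith

/-- The case of the exponents `0, k, 2k`. -/
theorem key_two {c u v : ℝ} (h0 : 0 < c) (h1 : c < 1) (huv : u - v = c) (hu : |u| ≤ 1 - c ^ 2)
    (hv : |v| ≤ 1 - c ^ 2) (h : u ≤ 2 * (1 - c ^ 2) - u ^ 2 / (1 - c) - v ^ 2 / (1 + c)) : c ^ 3 + c ^ 2 ≤ 1 := by
  by_contra hlt
  push Not at hlt
  have hb := bounds_of_gt h0 hlt
  set w := 1 - c ^ 2 with hw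
  have e : u ^ 2 / (1 - c) * w = u ^ 2 * (1 + c) ∧ v ^ 2 / (1 + c) * w = v ^ 2 * (1 - c) := by
    have h1' : (1 - c) ≠ 0 := (sub_pos.mpr h1).ne'
    have h2' : (1 + c) ≠ 0 := by linarith
    constructor <;> (rw [hw]; field_simp; ring)
  have hw0 : 0 < w := by rw [hw]; nlinarith
  have hm := mul_le_mul_of_nonneg_right h hw0.le
  obtain ⟨d, hd, rfl⟩ : ∃ d, 0 ≤ d ∧ v = -w + d := ⟨v + w, by linarith [(abs_le.mp hv).1], by ring⟩
  obtain rfl : u = c - w + d := by linarith
  rw [sub_mul, sub_mul, e.1, e.2] at hm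
  have hp : 0 ≤ (2 * c + 2 * c ^ 2 - 3 * w) * d := mul_nonneg (by rw [hw]; nlinarith) hd
  have hP : 0 < (1 + c) * (c ^ 3 + c ^ 2 - 1) := mul_pos (by linarith) (by linarith)
  rw [hw] at hm hp
  nlinarith [sq_nonneg d]

/-- The case of the exponents `0, j, k, j + k`. -/
theorem key_four {c e a s : ℝ} (h0 : 0 < c) (h1 : c < 1) (ha : a ^ 2 = 1) (hs : 1 ≤ |s|)
    (h : ∀ b, (a * e + s * c) + 2 * b * (a * c) + 2 * (e + c * b) ^ 2 + 2 * c ^ 2 - 2 - 2 * b ^ 2 ≤ 0)
    (h' : ∀ b, -(a * e + s * c) - 2 * b * (a * c) + 2 * (e + c * b) ^ 2 + 2 * c ^ 2 - 2 - 2 * b ^ 2 ≤ 0) :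
    c ^ 3 + c ^ 2 ≤ 1 := by
  by_contra hlt
  push Not at hlt
  have hb := bounds_of_gt h0 hlt
  set x := c ^ 2 with hx
  set w := 1 - x with hw
  have hw0 : 0 < w := by rw [hw, hx]; nlinarith
  set K := 4 * w ^ 2 - x with hK
  set B := 2 * w * s * c + 2 * a * e * (1 + x) with hB
  have hu : B ≤ K - 4 * e ^ 2 := by
    have hb1 := h (c * (a + 2 * e) / (2 * w))
    obtain ⟨t, ht⟩ : ∃ t, t = c * (a + 2 * e) / (2 * w) := ⟨_, rfl⟩
    have ht' : 2 * w * t = c * (a + 2 * e) := by rw [ht]; field_simp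
    rw [← ht] at hb1
    have := mul_le_mul_of_nonneg_left hb1 (by linarith : (0 : ℝ) ≤ 2 * w)
    rw [hB, hK, hw, hx] at *
    linear_combination this + (2 * (1 - c ^ 2) * t - c * (a + 2 * e)) * ht' - c ^ 2 * ha
  have hl : -B ≤ K - 4 * e ^ 2 := by
    have hb1 := h' (c * (2 * e - a) / (2 * w))
    obtain ⟨t, ht⟩ : ∃ t, t = c * (2 * e - a) / (2 * w) := ⟨_, rfl⟩
    have ht' : 2 * w * t = c * (2 * e - a) := by rw [ht]; field_simp
    rw [← ht] at hb1
    have := mul_le_mul_of_nonneg_left hb1 (by linarith : (0 : ℝ) ≤ 2 * w)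
    rw [hB, hK, hw, hx] at *
    linear_combination this + (2 * (1 - c ^ 2) * t - c * (2 * e - a)) * ht' - c ^ 2 * ha
  have hK0 : 0 ≤ K - 4 * e ^ 2 := by linarith
  set E := |e|
  have hE : e ^ 2 = E ^ 2 := (sq_abs e).symm
  have hae : |a * e| = E := by
    have : |a| = 1 := by rcases sq_eq_one_iff.mp ha with rfl | rfl <;> simp
    rw [abs_mul, this, one_mul]
  have hsw : 2 * w * c ≤ |2 * w * s * c| := by
    rw [show 2 * w * s * c = s * (2 * w * c) by ring, abs_mul, abs_of_pos (by positivity : 0 < 2 * w * c)]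
    exact le_mul_of_one_le_left (by positivity) hs
  have hmain : 2 * w * c ≤ K - 4 * E ^ 2 + 2 * E * (1 + x) := by
    have h3 : |2 * w * s * c| ≤ |B| + |2 * a * e * (1 + x)| := by
      rw [show 2 * w * s * c = B - 2 * a * e * (1 + x) by rw [hB]; ring]
      exact abs_sub _ _
    have hx1 : 0 < 1 + x := by positivity
    rw [show 2 * a * e * (1 + x) = (a * e) * (2 * (1 + x)) by ring, abs_mul (a * e), hae,
      abs_of_pos (by positivity : 0 < 2 * (1 + x))] at h3
    have : |B| ≤ K - 4 * e ^ 2 := abs_le.mpr ⟨by linarith, hu⟩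
    rw [hE] at this
    linarith
  obtain ⟨G, hG0, hG⟩ : ∃ G, 0 ≤ G ∧ G ^ 2 = K := ⟨√K, Real.sqrt_nonneg _, Real.sq_sqrt (by nlinarith)⟩
  have hE0 : 0 ≤ E := abs_nonneg _
  have h2E : 2 * E ≤ G := (pow_le_pow_iff_left₀ (by linarith) hG0 two_ne_zero).mp (by rw [hG]; nlinarith)
  have hxl : (5697 : ℝ) / 10000 < x := by rw [hx]; nlinarith
  have hxu : x < 1 := by rw [hx]; nlinarith
  have hG1 : 2 * G ≤ 1 + x := by
    refine (pow_le_pow_iff_left₀ (by linarith) (by linarith) two_ne_zero).mp ?_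
    rw [mul_pow, hG, hK, hw]
    nlinarith
  have hwc : 2 * w * c ≤ G * (1 + x) := by nlinarith [mul_nonneg (sub_nonneg.mpr h2E) (sub_nonneg.mpr hG1)]
  have hsq := pow_le_pow_left₀ (by positivity : 0 ≤ 2 * w * c) hwc 2
  rw [mul_pow, mul_pow, mul_pow, hG, hK, hw, ← hx] at hsq
  have h4 : 4 * (1 - x) ^ 2 * (1 + x + x ^ 2) < x * (1 + x) ^ 2 := by
    set y := x - (5697 : ℝ) / 10000 with hy
    have hy0 : 0 < y := by linarith
    have hxy : x = y + (5697 : ℝ) / 10000 := by linarith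
    have hy1 : y < 1 / 2 := by linarith
    rw [hxy]
    nlinarith [mul_pos hy0 hy0, mul_pos (mul_pos hy0 hy0) hy0, pow_pos hy0 4]
  nlinarith

/-- A coefficient of `R ψ` when `R` has no coefficients strictly between `0`, `k` and `n`. -/
theorem relation_split {u v : ℕ → ℝ} {r : ℕ → ℤ} (r0 : r 0 = 1)
    (rel : ∀ n, u n = ∑ i ∈ range (n + 1), (r i : ℝ) * v (n - i)) {k n : ℕ} (hk : 0 < k) (hkn : k < n)
    (hz : ∀ i, 0 < i → i < n → i ≠ k → r i = 0) : u n = v n + r k * v (n - k) + r n * v 0 := by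
  rw [rel, ← sum_subset (s₁ := {0, k, n}) (s₂ := range (n + 1))]
  · rw [sum_insert (by simp; omega), sum_insert (by simp; omega), sum_singleton, r0, Nat.sub_zero, Nat.sub_self]
    push_cast
    ring
  · intro i hi
    simp only [mem_insert, mem_singleton] at hi
    rw [mem_range]
    omega
  · intro i hi hi'
    simp only [mem_insert, mem_singleton, not_or] at hi'
    rw [mem_range] at hi
    rw [hz i (by omega) (by omega) hi'.2.1, Int.cast_zero, zero_mul]

theorem relation_lt {u v : ℕ → ℝ} {r : ℕ → ℤ} (r0 : r 0 = 1)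
    (rel : ∀ n, u n = ∑ i ∈ range (n + 1), (r i : ℝ) * v (n - i)) {n : ℕ}
    (hz : ∀ i, 0 < i → i ≤ n → r i = 0) : u n = v n := by
  rw [rel, sum_eq_single 0 (fun i hi h0 => by
      rw [mem_range] at hi
      rw [hz i (Nat.pos_of_ne_zero h0) (by omega), Int.cast_zero, zero_mul]) (by simp),
    r0, Nat.sub_zero, Int.cast_one, one_mul]

/-- **Smyth's inequality.** -/
theorem smyth_core {φ ψ : ℂ⟦X⟧} (hφ : IsContractive φ) (hψ : IsContractive ψ) {r : ℕ → ℤ} (r0 : r 0 = 1)
    (rel : ∀ n, reCoeff φ n = ∑ i ∈ range (n + 1), (r i : ℝ) * reCoeff ψ (n - i))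
    (hr : ∃ i, 0 < i ∧ r i ≠ 0) (h0 : 0 < reCoeff ψ 0) : reCoeff ψ 0 ^ 3 + reCoeff ψ 0 ^ 2 ≤ 1 := by
  classical
  obtain ⟨hk0, hkr⟩ := Nat.find_spec hr
  have hmin : ∀ i, 0 < i → i < Nat.find hr → r i = 0 := fun i hi hik =>
    by_contra fun hne => Nat.find_min hr hik ⟨hi, hne⟩
  generalize Nat.find hr = k at hk0 hkr hmin
  set c := reCoeff ψ 0 with hc
  have h00 : reCoeff φ 0 = c := relation_lt r0 rel (fun i hi hi0 => by omega)
  by_contra hlt
  push Not at hlt
  have hcb := bounds_of_gt h0 hlt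
  have hu := abs_reCoeff_le hφ hk0
  have hv := abs_reCoeff_le hψ hk0
  rw [h00] at hu
  rw [← hc] at hv
  have hkk : reCoeff φ k = reCoeff ψ k + r k * c := by
    rw [rel, ← sum_subset (s₁ := {0, k}) (s₂ := range (k + 1))]
    · rw [sum_insert (by simp; omega), sum_singleton, r0, Nat.sub_zero, Nat.sub_self, Int.cast_one, one_mul]
    · intro i hi
      simp only [mem_insert, mem_singleton] at hi
      rw [mem_range]
      omega
    · intro i hi hi'
      simp only [mem_insert, mem_singleton, not_or] at hi'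
      rw [mem_range] at hi
      rw [hmin i (by omega) (by omega), Int.cast_zero, zero_mul]
  have hc1 : c < 1 := by
    rcases lt_or_ge c 1 with h | h
    · exact h
    · exfalso
      have hle := reCoeff_zero_le hψ
      have hc1 : c = 1 := le_antisymm hle h
      rw [hc1] at hu hv hkk
      norm_num at hu hv
      rw [hu, hv, mul_one, zero_add, eq_comm, Int.cast_eq_zero] at hkk
      exact hkr hkk
  -- `|r k| = 1`
  have ha : r k = 1 ∨ r k = -1 := by
    have h1 : |(r k : ℝ)| * c < 2 * c := by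
      calc |(r k : ℝ)| * c = |reCoeff φ k - reCoeff ψ k| := by
            rw [hkk, add_sub_cancel_left, abs_mul, abs_of_pos h0]
        _ ≤ |reCoeff φ k| + |reCoeff ψ k| := abs_sub _ _
        _ ≤ 2 * (1 - c ^ 2) := by linarith
        _ < 2 * c := by nlinarith
    have h2 : |r k| < 2 := by exact_mod_cast lt_of_mul_lt_mul_right h1 h0.le
    rw [abs_lt] at h2
    omega
  by_cases hl : ∃ l, k < l ∧ l < 2 * k ∧ r l ≠ 0
  · -- the exponents `0, j, k, l`
    obtain ⟨hkl, hl2, hlr⟩ := Nat.find_spec hl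
    have hminl : ∀ i, 0 < i → i < Nat.find hl → i ≠ k → r i = 0 := fun i hi hil hik => by
      rcases Nat.lt_or_gt_of_ne hik with h | h
      · exact hmin i hi h
      · exact by_contra fun hne => Nat.find_min hl hil ⟨h, by omega, hne⟩
    generalize Nat.find hl = l at hkl hl2 hlr hminl
    obtain ⟨j, rfl⟩ : ∃ j, l = j + k := ⟨l - k, by omega⟩
    have hj : 0 < j := by omega
    have hjk : j < k := by omega
    have hll := relation_split r0 rel hk0 (by omega) hminl
    rw [Nat.add_sub_cancel] at hll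
    have hej : reCoeff φ j = reCoeff ψ j := relation_lt r0 rel fun i hi hij => hmin i hi (by omega)
    have hef : reCoeff φ (k - j) = reCoeff ψ (k - j) := relation_lt r0 rel fun i hi hij => hmin i hi (by omega)
    have hs : (1 : ℝ) ≤ |(r (j + k) : ℝ)| := by exact_mod_cast Int.one_le_abs hlr
    have ha2 : (r k : ℝ) ^ 2 = 1 := by rcases ha with e | e <;> rw [e] <;> norm_num
    refine absurd (key_four (e := reCoeff ψ j) h0 hc1 ha2 hs (fun b => ?_) (fun b => ?_)) (not_le.mpr hlt)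
    · have h1 := (abs_le.mp (form_four hφ hj hjk 1 b (reCoeff ψ j + b * c) c)).2
      have h2 := (abs_le.mp (form_four hψ hj hjk 1 b (-(reCoeff ψ j + b * c)) (-c))).1
      rw [hll, hkk, hej, hef, h00] at h1
      rw [← hc] at h1 h2
      linarith
    · have h1 := (abs_le.mp (form_four hψ hj hjk 1 b (reCoeff ψ j + b * c) c)).2
      have h2 := (abs_le.mp (form_four hφ hj hjk 1 b (-(reCoeff ψ j + b * c)) (-c))).1
      rw [hll, hkk, hej, hef, h00] at h2
      rw [← hc] at h1 h2
      linarith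
  · -- the exponents `0, k, 2k`
    push Not at hl
    have h2k := relation_split r0 rel hk0 (show k < 2 * k by omega) (fun i hi hi2 hik => by
      rcases Nat.lt_or_gt_of_ne hik with h | h
      · exact hmin i hi h
      · exact hl i h hi2)
    rw [show 2 * k - k = k by omega, ← hc] at h2k
    have hU := upper_two hφ hk0 (by rw [h00]; exact hc1)
    have hU' := upper_two hψ hk0 hc1
    have hL := lower_two hφ hk0 (by rw [h00]; exact h0)
    have hL' := lower_two hψ hk0 h0
    rw [h00] at hU hL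
    rw [← hc] at hU' hL'
    refine absurd ?_ (not_le.mpr hlt)
    rcases ha with e | e <;> rw [e] at hkk h2k <;> push_cast at hkk h2k
    · rcases le_or_gt 1 (r (2 * k)) with hs | hs
      · have : c ≤ (r (2 * k) : ℝ) * c := le_mul_of_one_le_left h0.le (by exact_mod_cast hs)
        exact key_two h0 hc1 (u := reCoeff φ k) (v := reCoeff ψ k) (by linarith) hu hv (by linarith)
      · have hs' : r (2 * k) ≤ 0 := by omega
        have : (r (2 * k) : ℝ) * c ≤ 0 := mul_nonpos_of_nonpos_of_nonneg (by exact_mod_cast hs') h0.le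
        refine key_two h0 hc1 (u := -reCoeff ψ k) (v := -reCoeff φ k) (by linarith) ?_ ?_ ?_
        · rwa [abs_neg]
        · rwa [abs_neg]
        · rw [neg_sq, neg_sq]
          linarith
    · rcases le_or_gt 1 (r (2 * k)) with hs | hs
      · have : c ≤ (r (2 * k) : ℝ) * c := le_mul_of_one_le_left h0.le (by exact_mod_cast hs)
        refine key_two h0 hc1 (u := -reCoeff φ k) (v := -reCoeff ψ k) (by linarith) ?_ ?_ ?_
        · rwa [abs_neg]
        · rwa [abs_neg]
        · rw [neg_sq, neg_sq]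
          linarith
      · have hs' : r (2 * k) ≤ 0 := by omega
        have : (r (2 * k) : ℝ) * c ≤ 0 := mul_nonpos_of_nonpos_of_nonneg (by exact_mod_cast hs') h0.le
        exact key_two h0 hc1 (u := reCoeff ψ k) (v := reCoeff φ k) (by linarith) hv hu (by linarith)

end FA.Smyth
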