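import Fermat.Agent.Smyth.Core
import Mathlib.Algebra.Polynomial.Reverse
import Mathlib.Analysis.Polynomial.MahlerMeasure
import Mathlib.Analysis.Complex.Polynomial.Basic

/-!
# Smyth's theorem

For monic `f` with `f (0) = ± 1`, the series `f (0) f / f*` has integer coefficients and is a quotient of two
products of Blaschke factors, the denominator's constant term being `1 / M (f)` in absolute value.
-/

set_option autoImplicit false
set_option linter.unusedSectionVars false

noncomputable section

open Finset PowerSeries Complex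
open scoped Classical ComplexConjugate

namespace FA.Smyth

/-- `(X - a) = (a / conj a) · (1 - conj a X) / blaschke (1 / conj a)`. -/
theorem mul_blaschke_inv {a : ℂ} (ha : a ≠ 0) :
    (X - C a) * blaschke (conj a)⁻¹ = C (a / conj a) * (1 - C (conj a) * X) := by
  have hc : conj a ≠ 0 := by simpa using ha
  have h := blaschke_mul (conj a)⁻¹
  rw [map_inv₀, Complex.conj_conj] at h
  have e : (X - C a) = C (-a) * (1 - C a⁻¹ * X) := by
    rw [mul_sub, mul_one, ← mul_assoc, ← map_mul, neg_mul, mul_inv_cancel₀ ha, map_neg, map_neg, map_one]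
    ring
  rw [e, mul_assoc, mul_comm (1 - C a⁻¹ * X) _, h,
    show C (-a) * ((X : ℂ⟦X⟧) - C (conj a)⁻¹) = C (-a * -(conj a)⁻¹) * (1 - C (conj a) * X) from ?_]
  · rw [neg_mul_neg, div_eq_mul_inv]
  · rw [mul_sub, mul_sub, mul_one, ← mul_assoc, ← map_mul, ← map_mul,
      show -a * -(conj a)⁻¹ * conj a = a by field_simp, map_neg, map_mul, map_mul, map_neg, map_neg]
    ring

/-- The two products of Blaschke factors. -/
theorem exists_contractive_factor (A : Multiset ℂ) (hA : (0 : ℂ) ∉ A) :
    ∃ φ ψ : ℂ⟦X⟧, IsContractive φ ∧ IsContractive ψ ∧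
      (A.map fun a => (X : ℂ⟦X⟧) - C a).prod * ψ = φ * (A.map fun a => (1 : ℂ⟦X⟧) - C (conj a) * X).prod ∧
      ‖coeff 0 ψ‖ = ((A.map fun a => max 1 ‖a‖).prod)⁻¹ := by
  induction A using Multiset.induction with
  | empty => exact ⟨1, 1, isContractive_one, isContractive_one, by simp, by simp⟩
  | cons a A ih =>
    rw [Multiset.mem_cons, not_or] at hA
    obtain ⟨φ, ψ, hφ, hψ, he, hn⟩ := ih hA.2
    have ha : a ≠ 0 := fun e => hA.1 e.symm
    simp only [Multiset.map_cons, Multiset.prod_cons]
    rcases lt_trichotomy ‖a‖ 1 with h | h | h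
    · have hns : normSq a < 1 := by
        rw [Complex.normSq_eq_norm_sq]
        nlinarith [norm_nonneg a]
      refine ⟨blaschke a * φ, ψ, (isContractive_blaschke hns).mul hφ, hψ, ?_, by
        rw [max_eq_left h.le, one_mul, hn]⟩
      rw [← blaschke_mul a]
      linear_combination (blaschke a * (1 - C (conj a) * X)) * he
    · have hu : a * conj a = 1 := by
        rw [mul_conj, Complex.normSq_eq_norm_sq, h, one_pow, Complex.ofReal_one]
      refine ⟨C (-a) * φ, ψ, (isContractive_C ?_).mul hφ, hψ, ?_, by rw [h, max_self, one_mul, hn]⟩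
      · rw [normSq_neg, Complex.normSq_eq_norm_sq, h, one_pow]
      · have e : (X : ℂ⟦X⟧) - C a = C (-a) * (1 - C (conj a) * X) := by
          rw [mul_sub, mul_one, ← mul_assoc, ← map_mul, neg_mul, hu, map_neg, map_neg, map_one]
          ring
        rw [e]
        linear_combination (C (-a) * (1 - C (conj a) * X)) * he
    · have hns : normSq (conj a)⁻¹ < 1 := by
        rw [map_inv₀, normSq_conj, Complex.normSq_eq_norm_sq]
        exact inv_lt_one_of_one_lt₀ (by nlinarith)
      refine ⟨C (a / conj a) * φ, blaschke (conj a)⁻¹ * ψ, (isContractive_C ?_).mul hφ,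
        (isContractive_blaschke hns).mul hψ, ?_, ?_⟩
      · rw [map_div₀, normSq_conj, div_self (by simpa using ha)]
      · linear_combination (C (a / conj a) * (1 - C (conj a) * X)) * he +
          ((A.map fun a => (X : ℂ⟦X⟧) - C a).prod * ψ) * mul_blaschke_inv ha
      · rw [coeff_zero_eq_constantCoeff_apply, map_mul, norm_mul, ← coeff_zero_eq_constantCoeff_apply,
          ← coeff_zero_eq_constantCoeff_apply, coeff_zero_blaschke, norm_neg, norm_inv, RCLike.norm_conj, hn,
          max_eq_right h.le, mul_inv]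

theorem reverse_prod_X_sub_C {R : Type*} [CommRing R] [IsDomain R] (A : Multiset R) :
    (A.map fun a => Polynomial.X - Polynomial.C a).prod.reverse =
      (A.map fun a => 1 - Polynomial.C a * Polynomial.X).prod := by
  induction A using Multiset.induction with
  | empty => simp [Polynomial.reverse]
  | cons a A ih =>
    rw [Multiset.map_cons, Multiset.map_cons, Multiset.prod_cons, Multiset.prod_cons,
      Polynomial.reverse_mul_of_domain, ih]
    congr 1
    rw [Polynomial.reverse, Polynomial.natDegree_X_sub_C, Polynomial.reflect_sub, Polynomial.reflect_C, pow_one]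
    simp [Polynomial.reflect, Polynomial.X, Polynomial.revAt, Polynomial.monomial_zero_left]

open Polynomial in
/-- For an integer polynomial the conjugate roots give the reversed polynomial. -/
theorem coe_reverse_eq {f : ℤ[X]} (hm : f.Monic) :
    ((f.map (Int.castRingHom ℂ)).roots.map fun a => (1 : ℂ⟦X⟧) - PowerSeries.C (conj a) * PowerSeries.X).prod =
      ((f.reverse.map (Int.castRingHom ℂ) : ℂ[X]) : ℂ⟦X⟧) := by
  set F := f.map (Int.castRingHom ℂ) with hF
  have hs : F = (F.roots.map fun a => Polynomial.X - Polynomial.C a).prod :=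
    (IsAlgClosed.splits F).eq_prod_roots_of_monic (hm.map _)
  have hrev : f.reverse.map (Int.castRingHom ℂ) = F.reverse := by
    rw [hF, Polynomial.reverse, Polynomial.reverse,
      natDegree_map_eq_of_injective (RingHom.injective_int (Int.castRingHom ℂ)), reflect_map]
  have hconj : (f.reverse.map (Int.castRingHom ℂ)).map (starRingEnd ℂ) = f.reverse.map (Int.castRingHom ℂ) := by
    rw [Polynomial.map_map]
    exact congrArg (Polynomial.map · f.reverse) (RingHom.ext_int _ _)
  conv_rhs => rw [← hconj, hrev, hs, reverse_prod_X_sub_C, Polynomial.map_multiset_prod, Multiset.map_map]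
  rw [← Polynomial.coeToPowerSeries.ringHom_apply, map_multiset_prod, Multiset.map_map]
  refine congrArg _ (Multiset.map_congr rfl fun a _ => ?_)
  simp [Polynomial.coeToPowerSeries.ringHom_apply]

open Polynomial in
/-- **Smyth's bound**, monic case with `f (0) = ± 1`. -/
theorem pow_three_ge {f : ℤ[X]} (hm : f.Monic) (h0 : f.coeff 0 = 1 ∨ f.coeff 0 = -1)
    (hne : f.reverse ≠ Polynomial.C (f.coeff 0) * f) :
    (f.map (Int.castRingHom ℂ)).mahlerMeasure + 1 ≤ (f.map (Int.castRingHom ℂ)).mahlerMeasure ^ 3 := by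
  set F := f.map (Int.castRingHom ℂ) with hF
  set e := f.coeff 0 with he0
  have hee : e * e = 1 := by rcases h0 with h | h <;> rw [h] <;> norm_num
  have hFm : F.Monic := hm.map _
  have hroots : (0 : ℂ) ∉ F.roots := fun h => by
    have := (mem_roots hFm.ne_zero).mp h
    rw [IsRoot, ← coeff_zero_eq_eval_zero, hF, Polynomial.coeff_map, eq_intCast, Int.cast_eq_zero] at this
    rw [← he0] at this
    rw [this] at hee
    exact zero_ne_one hee
  obtain ⟨φ, ψ, hφ, hψ, hprod, hnorm⟩ := exists_contractive_factor F.roots hroots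
  set M := (F.roots.map fun a => max 1 ‖a‖).prod with hM
  have hMM : F.mahlerMeasure = M := by
    rw [mahlerMeasure_eq_leadingCoeff_mul_prod_roots, hFm.leadingCoeff, norm_one, one_mul]
  rw [hMM]
  have hM1 : 1 ≤ M := one_le_prod_max_one_norm_roots F
  -- the integer series
  have hu : PowerSeries.constantCoeff (f.reverse : ℤ⟦X⟧) = ((1 : ℤˣ) : ℤ) := by
    rw [← PowerSeries.coeff_zero_eq_constantCoeff_apply, Polynomial.coeff_coe, coeff_zero_reverse, hm.leadingCoeff,
      Units.val_one]
  set R : ℤ⟦X⟧ := PowerSeries.C e * (f : ℤ⟦X⟧) * PowerSeries.invOfUnit (f.reverse : ℤ⟦X⟧) 1 with hR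
  have hRf : R * (f.reverse : ℤ⟦X⟧) = PowerSeries.C e * (f : ℤ⟦X⟧) := by
    rw [hR, mul_assoc, mul_comm (PowerSeries.invOfUnit _ _), PowerSeries.mul_invOfUnit _ _ hu, mul_one]
  clear_value R
  have hR0 : PowerSeries.coeff 0 R = 1 := by
    have h := congrArg PowerSeries.constantCoeff hRf
    rw [map_mul, map_mul, hu, Units.val_one, mul_one, PowerSeries.constantCoeff_C,
      ← PowerSeries.coeff_zero_eq_constantCoeff_apply, ← PowerSeries.coeff_zero_eq_constantCoeff_apply,
      Polynomial.coeff_coe, ← he0, hee] at h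
    exact h
  have hRne : ∃ i, 0 < i ∧ PowerSeries.coeff i R ≠ 0 := by
    by_contra hcon
    push Not at hcon
    have hR1 : R = 1 := PowerSeries.ext fun i => by
      rcases Nat.eq_zero_or_pos i with rfl | hi
      · rw [hR0, PowerSeries.coeff_zero_eq_constantCoeff_apply, map_one]
      · rw [hcon i hi, PowerSeries.coeff_one, if_neg hi.ne']
    rw [hR1, one_mul, ← Polynomial.coe_C, ← Polynomial.coe_mul] at hRf
    exact hne (Polynomial.coe_injective ℤ hRf)
  -- the complex relation
  set ι := PowerSeries.map (Int.castRingHom ℂ) with hι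
  have hcoe : ∀ g : ℤ[X], ι (g : ℤ⟦X⟧) = ((g.map (Int.castRingHom ℂ) : ℂ[X]) : ℂ⟦X⟧) := fun g => by
    ext n
    simp [hι, PowerSeries.coeff_map]
  have hFser : (F : ℂ⟦X⟧) = (F.roots.map fun a => (PowerSeries.X : ℂ⟦X⟧) - PowerSeries.C a).prod := by
    conv_lhs => rw [(IsAlgClosed.splits F).eq_prod_roots_of_monic hFm]
    rw [← Polynomial.coeToPowerSeries.ringHom_apply, map_multiset_prod, Multiset.map_map]
    refine congrArg _ (Multiset.map_congr rfl fun a _ => ?_)
    simp [Polynomial.coeToPowerSeries.ringHom_apply]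
  rw [← hFser, coe_reverse_eq hm] at hprod
  have hRc := congrArg ι hRf
  rw [map_mul, map_mul, hcoe, hcoe, hι, PowerSeries.map_C, eq_intCast, ← hι, ← hF] at hRc
  have hne0 : ((f.reverse.map (Int.castRingHom ℂ) : ℂ[X]) : ℂ⟦X⟧) ≠ 0 := fun h => by
    have := congrArg PowerSeries.constantCoeff h
    rw [map_zero, ← PowerSeries.coeff_zero_eq_constantCoeff_apply, Polynomial.coeff_coe, Polynomial.coeff_map,
      coeff_zero_reverse, hm.leadingCoeff, map_one] at this
    exact one_ne_zero this
  have hrel : PowerSeries.C (e : ℂ) * φ = ι R * ψ := mul_right_cancel₀ hne0 (by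
    linear_combination (-PowerSeries.C (e : ℂ)) * hprod - ψ * hRc)
  -- rotate
  set z := PowerSeries.coeff 0 ψ with hz
  have hz0 : z ≠ 0 := fun h => by
    rw [h, norm_zero, eq_comm, _root_.inv_eq_zero] at hnorm
    linarith
  set κ : ℂ := (‖z‖ : ℂ) / z with hκ
  have hκ1 : normSq κ ≤ 1 := by
    rw [hκ, map_div₀, Complex.normSq_ofReal, ← pow_two, Complex.normSq_eq_norm_sq,
      div_self (pow_ne_zero _ (norm_ne_zero_iff.mpr hz0))]
  have he1 : normSq (e : ℂ) ≤ 1 := by
    rw [← Complex.ofReal_intCast, Complex.normSq_ofReal]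
    exact_mod_cast hee.le
  have hψ' := (isContractive_C hκ1).mul hψ
  have hφ' := ((isContractive_C hκ1).mul (isContractive_C he1)).mul hφ
  have hc0 : reCoeff (PowerSeries.C κ * ψ) 0 = M⁻¹ := by
    rw [reCoeff, PowerSeries.coeff_C_mul, ← hz, hκ, div_mul_cancel₀ _ hz0, Complex.ofReal_re, hnorm]
  have hcore := smyth_core hφ' hψ' (r := fun i => PowerSeries.coeff i R) hR0 (fun n => ?_) hRne
    (by rw [hc0]; positivity)
  · rw [hc0] at hcore
    have hM0 : 0 < M := by linarith
    have := mul_le_mul_of_nonneg_right hcore (pow_nonneg hM0.le 3)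
    rw [add_mul, one_mul, inv_pow, inv_pow, inv_mul_cancel₀ (pow_ne_zero 3 hM0.ne'), pow_succ M 2,
      ← mul_assoc, inv_mul_cancel₀ (pow_ne_zero 2 hM0.ne'), one_mul] at this
    rw [pow_succ M 2]
    linarith
  · rw [mul_assoc, hrel, ← mul_assoc, mul_comm (PowerSeries.C κ), mul_assoc]
    simp only [reCoeff]
    rw [PowerSeries.coeff_mul, Finset.Nat.sum_antidiagonal_eq_sum_range_succ_mk, Complex.re_sum]
    refine Finset.sum_congr rfl fun i _ => ?_
    rw [hι, PowerSeries.coeff_map, eq_intCast, ← Complex.ofReal_intCast, Complex.re_ofReal_mul]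

end FA.Smyth
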