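import Mathlib.RingTheory.PowerSeries.Inverse
import Mathlib.Analysis.Complex.Basic
import Mathlib.Algebra.BigOperators.Fin
import Mathlib.Tactic.LinearCombination
import Mathlib.Tactic.IntervalCases

/-!
# Contractive power series

A power series `φ` is contractive when multiplication by it shortens every truncation in `ℓ²`, as for the Taylor
series of an analytic map of the disc to itself. Blaschke factors are contractive, by a two by two unitary matrix.
For a contractive `φ` and a real polynomial `P`, every coefficient of `φ P²` has real part at most `‖P‖²`.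
-/

set_option autoImplicit false
set_option linter.unusedSectionVars false

noncomputable section

open Finset PowerSeries Complex

namespace FA.Smyth

/-- Multiplication by `φ` is an `ℓ²` contraction of the first `n` coefficients, for every `n`. -/
def IsContractive (φ : ℂ⟦X⟧) : Prop :=
  ∀ (ψ : ℂ⟦X⟧) (n : ℕ), ∑ i ∈ range n, normSq (coeff i (φ * ψ)) ≤ ∑ i ∈ range n, normSq (coeff i ψ)

theorem IsContractive.mul {φ φ' : ℂ⟦X⟧} (h : IsContractive φ) (h' : IsContractive φ') : IsContractive (φ * φ') :=
  fun ψ n => by
    rw [mul_assoc]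
    exact (h _ n).trans (h' ψ n)

theorem isContractive_C {κ : ℂ} (h : normSq κ ≤ 1) : IsContractive (C κ) := fun ψ n =>
  Finset.sum_le_sum fun i _ => by
    rw [coeff_C_mul, map_mul]
    exact mul_le_of_le_one_left (normSq_nonneg _) h

theorem isContractive_one : IsContractive 1 := fun ψ n => by rw [one_mul]

/-- The Blaschke factor `(X - a) / (1 - conj a X)`. -/
def blaschke (a : ℂ) : ℂ⟦X⟧ := (X - C a) * (1 - C ((starRingEnd ℂ) a) * X)⁻¹

theorem constantCoeff_one_sub (b : ℂ) : constantCoeff (1 - C b * X) = 1 := by simp

theorem blaschke_mul (a : ℂ) : blaschke a * (1 - C ((starRingEnd ℂ) a) * X) = X - C a := by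
  rw [blaschke, mul_assoc, PowerSeries.inv_mul_cancel _ (by rw [constantCoeff_one_sub]; exact one_ne_zero), mul_one]

theorem coeff_zero_blaschke (a : ℂ) : coeff 0 (blaschke a) = -a := by
  simp [blaschke]

/-- **A Blaschke factor is contractive.** -/
theorem isContractive_blaschke {a : ℂ} (ha : normSq a < 1) : IsContractive (blaschke a) := by
  intro x n
  set y := blaschke a * x with hy
  set a' := (starRingEnd ℂ) a with ha'
  have hrel : y * (1 - C a' * X) = (X - C a) * x := by
    rw [hy, mul_right_comm, ha', blaschke_mul]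
  have h0 : coeff 0 y = -a * coeff 0 x := by
    have := congrArg (coeff 0) hrel
    simpa using this
  have hs : ∀ i, coeff (i + 1) y = -a * coeff (i + 1) x + (coeff i x + a' * coeff i y) := fun i => by
    have h := congrArg (coeff (i + 1)) hrel
    rw [mul_sub, mul_one, map_sub, sub_mul, map_sub, coeff_C_mul, mul_left_comm y (C a') X, coeff_C_mul,
      coeff_succ_mul_X, coeff_succ_X_mul] at h
    linear_combination h
  have key : ∀ m, (1 - normSq a) * ∑ i ∈ range (m + 1), normSq (coeff i y) + normSq (coeff m x + a' * coeff m y) =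
      (1 - normSq a) * ∑ i ∈ range (m + 1), normSq (coeff i x) := by
    intro m
    induction m with
    | zero =>
      rw [sum_range_one, sum_range_one, h0, ha']
      simp only [normSq_apply, add_re, add_im, mul_re, mul_im, neg_re, neg_im, conj_re, conj_im]
      ring
    | succ m ih =>
      rw [sum_range_succ _ (m + 1), sum_range_succ _ (m + 1), mul_add, mul_add, ← ih, hs m]
      generalize coeff m x + a' * coeff m y = s
      rw [ha']
      simp only [normSq_apply, add_re, add_im, mul_re, mul_im, neg_re, neg_im, conj_re, conj_im]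
      ring
  rcases n with _ | m
  · simp
  have := key m
  have := normSq_nonneg (coeff m x + a' * coeff m y)
  exact le_of_mul_le_mul_left (by linarith) (sub_pos.mpr ha)

/-- **Coefficients of `φ P²`.** -/
theorem abs_re_coeff_mul_sq_le {φ : ℂ⟦X⟧} (h : IsContractive φ) (P : ℂ⟦X⟧) (hP : ∀ i, (coeff i P).im = 0) (n : ℕ) :
    |(coeff n (φ * (P * P))).re| ≤ ∑ i ∈ range (n + 1), (coeff i P).re ^ 2 := by
  have hc : (coeff n (φ * (P * P))).re = ∑ i ∈ range (n + 1), (coeff i (φ * P)).re * (coeff (n - i) P).re := by
    rw [← mul_assoc, coeff_mul, Finset.Nat.sum_antidiagonal_eq_sum_range_succ_mk, re_sum]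
    exact Finset.sum_congr rfl fun i _ => by rw [mul_re, hP (n - i), mul_zero, sub_zero]
  have hle := h P (n + 1)
  rw [Finset.sum_congr rfl fun i _ => show normSq (coeff i P) = (coeff i P).re ^ 2 by
    rw [normSq_apply, hP i, mul_zero, add_zero, pow_two]] at hle
  have hflip : ∑ i ∈ range (n + 1), (coeff (n - i) P).re ^ 2 = ∑ i ∈ range (n + 1), (coeff i P).re ^ 2 :=
    Finset.sum_range_reflect (fun i => (coeff i P).re ^ 2) (n + 1)
  have hterm : ∀ i, |(coeff i (φ * P)).re * (coeff (n - i) P).re| ≤
      (normSq (coeff i (φ * P)) + (coeff (n - i) P).re ^ 2) / 2 := fun i => by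
    rw [abs_mul]
    have h1 := sq_nonneg (|(coeff i (φ * P)).re| - |(coeff (n - i) P).re|)
    rw [sub_sq, sq_abs, sq_abs] at h1
    have := mul_self_nonneg (coeff i (φ * P)).im
    rw [normSq_apply]
    nlinarith
  rw [hc]
  refine (Finset.abs_sum_le_sum_abs _ _).trans ((Finset.sum_le_sum fun i _ => hterm i).trans ?_)
  simp only [div_eq_mul_inv, ← Finset.sum_mul, Finset.sum_add_distrib, hflip]
  linarith

end FA.Smyth
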